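import Fermat.Agent.S58.H292.CoeffHensel
import Fermat.Agent.S22
import Fermat.Agent.Lib.Ribet.H404.ResMod

/-!
# S58 leaf COEFF at the auxiliary prime (helper292)

For a normalised eigenform `g` of level `M` and a finite set `B` of primes there is ONE prime
`lam ∉ B` such that for EVERY finite set `S ⊇ primes(M)` (in particular for sets `S ∋ lam`, which
can only be chosen after `lam`) and every character `chig` of the Hecke algebra away from `S`
with `chig (T_ℓ) = a_ℓ(g)`, there is an injective ring homomorphism `chig.range →+* ℤ_[lam]`: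
exactly the inputs `(O' := ℤ_[lam], chig, iota)` of the frozen statements S35/S36/S30.

* `eigenCharAway hg S` : the eigencharacter of `g` on `heckeAlgebra M 2 S` (any `S`);
* `eigenCharAway_T`    : its value at `T_ℓ` is `a_ℓ(g)`;
* `eq_eigenCharAway`   : uniqueness (for `S ⊇ primes(M)`);
* `exists_aux_prime_iota` : the statement above.
-/

set_option autoImplicit false

open CuspForm CongruenceSubgroup ModularFormClass

namespace Fermat.Agent.S58.H292

variable {M : ℕ} [NeZero M]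

/-- The eigencharacter of a normalised eigenform on the Hecke algebra away from `S`. -/
noncomputable def eigenCharAway {g : CuspForm (Gamma0 M) 2} (hg : g.IsNormalizedEigenform)
    (S : Set ℕ) : heckeAlgebra M 2 S →+* ℂ :=
  (Fermat.Agent.Lib.Ribet.H404.eigenChar hg).comp
    (Subalgebra.inclusion (heckeAlgebra_mono (Set.empty_subset S))).toRingHom

theorem eigenCharAway_T {g : CuspForm (Gamma0 M) 2} (hg : g.IsNormalizedEigenform) (S : Set ℕ)
    {ℓ : ℕ} (hℓ : ℓ.Prime) (hℓM : ¬ ℓ ∣ M) (hℓS : ℓ ∉ S) :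
    eigenCharAway hg S (heckeAlgebra.T hℓ hℓM hℓS) = qCoeff g ℓ := by
  rw [← Fermat.Agent.Lib.Ribet.H404.eigenChar_T hg hℓ hℓM]
  rfl

theorem eigenCharAway_mem_range {g : CuspForm (Gamma0 M) 2} (hg : g.IsNormalizedEigenform)
    (S : Set ℕ) (t : heckeAlgebra M 2 S) :
    eigenCharAway hg S t ∈ (Fermat.Agent.Lib.Ribet.H404.eigenChar hg).range :=
  ⟨_, rfl⟩

/-- A character of the Hecke algebra away from `S ⊇ primes(M)` is determined by its values at
the `T_ℓ`. -/
theorem eq_eigenCharAway {g : CuspForm (Gamma0 M) 2} (hg : g.IsNormalizedEigenform)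
    (S : Set ℕ) (hMS : ∀ q : ℕ, q.Prime → q ∣ M → q ∈ S)
    (chig : heckeAlgebra M 2 S →+* ℂ)
    (hchig : ∀ (ℓ : ℕ) (hℓ : ℓ.Prime) (hℓM : ¬ ℓ ∣ M) (hℓS : ℓ ∉ S),
      chig (heckeAlgebra.T hℓ hℓM hℓS) = qCoeff g ℓ) :
    chig = eigenCharAway hg S := by
  have key : chig.toIntAlgHom = (eigenCharAway hg S).toIntAlgHom := by
    apply AlgHom.adjoin_ext
    rintro x (⟨ℓ, hℓ, hℓM, hℓS, rfl⟩ | ⟨q, hqM, hq, hqS, rfl⟩)
    · exact (hchig ℓ hℓ hℓM hℓS).trans (eigenCharAway_T hg S hℓ hℓM hℓS).symm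
    · exact absurd (hMS q hq hqM) hqS
  ext t
  exact congrArg (fun φ : heckeAlgebra M 2 S →ₐ[ℤ] ℂ => φ t) key

/-- **COEFF at the auxiliary prime.**  One prime `lam ∉ B` receives the coefficient rings of `g`
away from every `S ⊇ primes(M)`. -/
theorem exists_aux_prime_iota {g : CuspForm (Gamma0 M) 2} (hg : g.IsNormalizedEigenform)
    (B : Finset ℕ) :
    ∃ (lam : ℕ) (_ : Fact lam.Prime), lam ∉ B ∧
      ∀ (S : Finset ℕ), (∀ q : ℕ, q.Prime → q ∣ M → q ∈ S) →
        ∀ chig : heckeAlgebra M 2 (↑S : Set ℕ) →+* ℂ,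
          (∀ (ℓ : ℕ) (hℓ : ℓ.Prime) (hℓM : ¬ ℓ ∣ M) (hℓS : ℓ ∉ (↑S : Set ℕ)),
            chig (heckeAlgebra.T hℓ hℓM hℓS) = qCoeff g ℓ) →
          ∃ iota : chig.range →+* ℤ_[lam], Function.Injective iota := by
  have : Module.Finite ℤ (heckeAlgebra M 2 (∅ : Set ℕ)) := Fermat.Agent.S22.result M 2 ∅
  obtain ⟨lam, hlam, hlamB, ι₀, hι₀⟩ :=
    exists_prime_ringHom_range (Fermat.Agent.Lib.Ribet.H404.eigenChar hg) B
  refine ⟨lam, hlam, hlamB, fun S hMS chig hchig => ?_⟩
  have hEq := eq_eigenCharAway hg (↑S : Set ℕ) (fun q hq hqM => Finset.mem_coe.mpr (hMS q hq hqM))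
    chig hchig
  have hle : chig.range ≤ (Fermat.Agent.Lib.Ribet.H404.eigenChar hg).range := by
    rintro y ⟨t, rfl⟩
    rw [hEq]
    exact eigenCharAway_mem_range hg _ t
  refine ⟨ι₀.comp (Subring.inclusion hle), ?_⟩
  exact hι₀.comp (Subring.inclusion_injective hle)

end Fermat.Agent.S58.H292
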