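import Fermat.Agent.S48.H368.Split

/-!
# S58 leaf COEFF-Hensel (helper292): coefficient rings embed in `ℤ_[lam]` for some `lam`

For the auxiliary prime of the S58 chain (architect helper94, note #8416): a subring of `ℂ`
which is finite over `ℤ` (e.g. `ℤ[α]` for an algebraic integer `α`, or the range of a character
of a Hecke algebra) admits, for every finite set `B` of primes, a prime `lam ∉ B` and an
INJECTIVE ring homomorphism to `ℤ_[lam]`.

Everything is a corollary of `Fermat.Agent.S48.H368.exists_padicInt_hom`
(Schur + Hensel + primitive element, helper368, on main, Mathlib-only).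

* `exists_prime_ringHom_adjoin`  : `Algebra.adjoin ℤ {α} →+* ℤ_[lam]`, `α : ℂ` integral over `ℤ`;
* `exists_prime_ringHom_subring` : `R →+* ℤ_[lam]`, `R : Subring ℂ` finite over `ℤ`;
* `exists_prime_ringHom_range`   : `chi.range →+* ℤ_[lam]`, `chi : H →+* ℂ`, `H` finite over `ℤ`.
-/

set_option autoImplicit false

namespace Fermat.Agent.S58.H292

/-- **COEFF-Hensel, as requested in note #8416.**  For an algebraic integer `α ∈ ℂ` and a finite
set `B` of primes there are a prime `lam ∉ B` and an (injective) ring homomorphism
`ℤ[α] →+* ℤ_[lam]`. -/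
theorem exists_prime_ringHom_adjoin (α : ℂ) (hα : IsIntegral ℤ α) (B : Finset ℕ) :
    ∃ (lam : ℕ) (_ : Fact lam.Prime), lam ∉ B ∧
      ∃ ι : Algebra.adjoin ℤ ({α} : Set ℂ) →+* ℤ_[lam], Function.Injective ι := by
  have : Module.Finite ℤ (Algebra.adjoin ℤ ({α} : Set ℂ)) :=
    Algebra.finite_adjoin_simple_of_isIntegral hα
  exact Fermat.Agent.S48.H368.exists_padicInt_hom (Algebra.adjoin ℤ ({α} : Set ℂ)) B

/-- The same for any subring of `ℂ` which is finite over `ℤ`. -/
theorem exists_prime_ringHom_subring (R : Subring ℂ) [Module.Finite ℤ R] (B : Finset ℕ) :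
    ∃ (lam : ℕ) (_ : Fact lam.Prime), lam ∉ B ∧
      ∃ ι : R →+* ℤ_[lam], Function.Injective ι :=
  Fermat.Agent.S48.H368.exists_padicInt_hom R B

/-- The range of a complex character of a commutative ring which is finite over `ℤ` is finite
over `ℤ`. -/
theorem moduleFinite_range {H : Type*} [CommRing H] [Module.Finite ℤ H] (chi : H →+* ℂ) :
    Module.Finite ℤ chi.range :=
  Module.Finite.of_surjective chi.rangeRestrict.toIntAlgHom.toLinearMap
    chi.rangeRestrict_surjective

/-- The same for the range of a complex character of a commutative ring which is finite over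
`ℤ` (e.g. a Hecke algebra, by S22). -/
theorem exists_prime_ringHom_range {H : Type*} [CommRing H] [Module.Finite ℤ H] (chi : H →+* ℂ)
    (B : Finset ℕ) :
    ∃ (lam : ℕ) (_ : Fact lam.Prime), lam ∉ B ∧
      ∃ ι : chi.range →+* ℤ_[lam], Function.Injective ι := by
  have := moduleFinite_range chi
  exact Fermat.Agent.S48.H368.exists_padicInt_hom chi.range B

end Fermat.Agent.S58.H292
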